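import Mathlib
import Fermat.Agent.S20.Dual.Tame

/-!
# S20 / Dedekind-Weber (DW-b): trace duals, valuative criterion (tame case)

`A ⊆ B` Dedekind domains with fraction fields `K ⊆ L`, `L/K` finite separable, `B` the integral
closure of `A` in `L`, `A` a PID all of whose residue fields have characteristic zero.

* `dw_mem_traceDual_iff_mul_mem`: `h ∈ B^∨ ⇔ h 𝔇 ⊆ B` (`𝔇` the different ideal),
* `dw_local_different`: at a prime `Q` of `B` over `(t)`: `v_Q(t) = e`, `𝔇 ⊆ Q^(e-1)`, `𝔇 ⊄ Q^e`,
* `dw_mem_traceDual_iff_valuation`: `h ∈ B^∨ ⇔ ∀ Q | (t), v_Q(h t) < 1`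
  (i.e. `ord_Q h ≥ 1 - e_Q`).
-/

set_option autoImplicit false

namespace Fermat.Agent.S20

open Algebra Module IsDedekindDomain WithZero nonZeroDivisors

attribute [local instance] FractionRing.liftAlgebra FractionRing.isScalarTower_liftAlgebra
  Ideal.Quotient.field

theorem dw_lt_exp_iff (x : ℤᵐ⁰) (n : ℤ) : x < exp n ↔ x ≤ exp (n - 1) := by
  have : exp n = exp (n - 1) * exp (1 : ℤ) := by rw [← exp_add]; congr 1; ring
  rw [this, lt_mul_exp_iff_le exp_ne_zero]

/-- The maximal ideal of `A` under a height one prime of `B` is generated by some `t ≠ 0`. -/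
theorem dw_exists_generator_under {A B : Type*} [CommRing A] [CommRing B] [Algebra A B]
    [IsDedekindDomain A] [IsDedekindDomain B] [Algebra.IsIntegral A B] [IsPrincipalIdealRing A]
    (Q : HeightOneSpectrum B) :
    ∃ t : A, t ≠ 0 ∧ (Ideal.span {t}).IsMaximal ∧ algebraMap A B t ∈ Q.asIdeal := by
  have hprime : (Q.asIdeal.comap (algebraMap A B)).IsPrime := Ideal.comap_isPrime _ _
  have hne : Q.asIdeal.comap (algebraMap A B) ≠ ⊥ := by
    intro h0
    exact Q.ne_bot (Ideal.eq_bot_of_comap_eq_bot h0)
  have hmax : (Q.asIdeal.comap (algebraMap A B)).IsMaximal := hprime.isMaximal hne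
  obtain ⟨t, ht⟩ := (IsPrincipalIdealRing.principal (Q.asIdeal.comap (algebraMap A B))).principal
  have ht' : Q.asIdeal.comap (algebraMap A B) = Ideal.span {t} := ht
  refine ⟨t, ?_, ?_, ?_⟩
  · rintro rfl
    apply hne
    rw [ht']
    simp
  · rw [← ht']; exact hmax
  · have : t ∈ Q.asIdeal.comap (algebraMap A B) := by
      rw [ht']; exact Ideal.mem_span_singleton_self t
    exact this

section

variable (A K : Type*) {L : Type*} {B : Type*} [CommRing A] [Field K] [CommRing B] [Field L]
variable [Algebra A K] [Algebra B L] [Algebra A B] [Algebra K L] [Algebra A L]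
variable [IsScalarTower A K L] [IsScalarTower A B L]
variable [IsFractionRing A K] [FiniteDimensional K L] [Algebra.IsSeparable K L]
  [IsIntegralClosure B A L]
variable [IsFractionRing B L] [IsDedekindDomain A] [IsDedekindDomain B] [Module.IsTorsionFree A B]
  [Module.Finite A B]

omit [FiniteDimensional K L] [IsIntegralClosure B A L] in
include K L in
theorem dw_isSeparable_fractionRing :
    Algebra.IsSeparable (FractionRing A) (FractionRing B) := by
  have H : RingHom.comp (algebraMap (FractionRing A) (FractionRing B))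
      ↑(FractionRing.algEquiv A K).symm.toRingEquiv =
        RingHom.comp ↑(FractionRing.algEquiv B L).symm.toRingEquiv (algebraMap K L) := by
    apply IsLocalization.ringHom_ext A⁰
    ext
    simp only [RingHom.coe_comp, RingHom.coe_coe,
      AlgEquiv.coe_ringEquiv, Function.comp_apply, AlgEquiv.commutes,
      ← IsScalarTower.algebraMap_apply]
    rw [IsScalarTower.algebraMap_apply A B L, AlgEquiv.commutes, ← IsScalarTower.algebraMap_apply]
  exact Algebra.IsSeparable.of_equiv_equiv _ _ H

/-- membership in the trace dual of `B` = membership in the inverse different. -/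
theorem dw_mem_traceDual_iff_mul_mem (h : L) :
    h ∈ Submodule.traceDual A K (1 : Submodule B L) ↔
      ∀ d ∈ differentIdeal A B, ∃ b : B, h * algebraMap B L d = algebraMap B L b := by
  have hD0 : differentIdeal A B ≠ ⊥ := by
    have := dw_isSeparable_fractionRing A K (L := L) (B := B)
    exact differentIdeal_ne_bot
  have hD0' : (↑(differentIdeal A B) : FractionalIdeal B⁰ L) ≠ 0 := by
    simpa using hD0
  have e1 := coeIdeal_differentIdeal A K L B
  have e2 : FractionalIdeal.dual A K (1 : FractionalIdeal B⁰ L)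
      = (↑(differentIdeal A B) : FractionalIdeal B⁰ L)⁻¹ := by
    rw [e1, inv_inv]
  rw [← FractionalIdeal.coe_dual_one, FractionalIdeal.mem_coe, e2,
    FractionalIdeal.mem_inv_iff hD0']
  constructor
  · intro H d hd
    have := H (algebraMap B L d) ((FractionalIdeal.mem_coeIdeal _).mpr ⟨d, hd, rfl⟩)
    rw [FractionalIdeal.mem_one_iff] at this
    obtain ⟨b, hb⟩ := this
    exact ⟨b, hb.symm⟩
  · intro H y hy
    obtain ⟨d, hd, rfl⟩ := (FractionalIdeal.mem_coeIdeal _).mp hy
    obtain ⟨b, hb⟩ := H d hd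
    rw [FractionalIdeal.mem_one_iff]
    exact ⟨b, hb.symm⟩


omit [FiniteDimensional K L] [IsIntegralClosure B A L] in
include K L in
/-- Local structure of the different at a prime `Q` of `B` over a maximal principal `p = (t)`
with residue characteristic zero. -/
theorem dw_local_different (Q : HeightOneSpectrum B) (t : A) (ht : t ≠ 0)
    [hmax : (Ideal.span {t}).IsMaximal] [CharZero (A ⧸ Ideal.span {t})]
    (htQ : algebraMap A B t ∈ Q.asIdeal) :
    ∃ e : ℕ, e ≠ 0 ∧ Q.intValuation (algebraMap A B t) = exp (-(e : ℤ)) ∧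
      (∀ d ∈ differentIdeal A B, Q.intValuation d ≤ exp (-((e : ℤ) - 1))) ∧
      ∃ d ∈ differentIdeal A B, ¬ Q.intValuation d ≤ exp (-(e : ℤ)) := by
  have hsep := dw_isSeparable_fractionRing A K (L := L) (B := B)
  have hinj : Function.Injective (algebraMap A B) := FaithfulSMul.algebraMap_injective A B
  set p : Ideal A := Ideal.span {t} with hp
  have hp0 : p ≠ ⊥ := by rw [hp, Ne, Ideal.span_singleton_eq_bot]; exact ht
  have htB : algebraMap A B t ≠ 0 := by rwa [Ne, map_eq_zero_iff _ hinj]
  have hmap : p.map (algebraMap A B) = Ideal.span {algebraMap A B t} := by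
    rw [hp, Ideal.map_span, Set.image_singleton]
  have hmap0 : p.map (algebraMap A B) ≠ ⊥ := by
    rw [hmap, Ne, Ideal.span_singleton_eq_bot]; exact htB
  have hQmax : Q.asIdeal.IsMaximal := Q.isMaximal
  obtain ⟨Q', hsup, hfac⟩ := Ideal.eq_prime_pow_mul_coprime hmap0 Q.asIdeal
  set e := Multiset.count Q.asIdeal (UniqueFactorizationMonoid.normalizedFactors
    (p.map (algebraMap A B))) with he
  have hle : p.map (algebraMap A B) ≤ Q.asIdeal := by
    rw [hmap, Ideal.span_le, Set.singleton_subset_iff]; exact htQ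
  have he0 : e ≠ 0 := by
    intro h0
    rw [h0, pow_zero, one_mul] at hfac
    have : Q' ≤ Q.asIdeal := hfac ▸ hle
    rw [sup_eq_left.mpr this] at hsup
    exact Q.isPrime.ne_top hsup
  have hcop : IsCoprime (Q.asIdeal ^ e) Q' :=
    (Ideal.isCoprime_iff_sup_eq.mpr hsup).pow_left
  have hQe_top : Q.asIdeal ^ e ≠ ⊤ := by
    intro h
    have : Q.asIdeal ^ e ≤ Q.asIdeal := Ideal.pow_le_self he0
    rw [h, top_le_iff] at this
    exact Q.isPrime.ne_top this
  have F1 : Q.asIdeal ^ (e - 1) ∣ differentIdeal A B :=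
    pow_sub_one_dvd_differentIdeal A Q.asIdeal e hp0 ⟨Q', hfac⟩
  have F2 : ¬ Q.asIdeal ^ e ∣ differentIdeal A B :=
    dw_not_dvd_differentIdeal_of_charZero A (Q.asIdeal ^ e) Q' hQe_top hcop hfac.symm
  refine ⟨e, he0, ?_, ?_, ?_⟩
  · apply le_antisymm
    · rw [Q.intValuation_le_pow_iff_dvd, ← hmap]
      exact ⟨Q', hfac⟩
    · by_contra hlt
      push Not at hlt
      rw [dw_lt_exp_iff] at hlt
      have h1 : Q.intValuation (algebraMap A B t) ≤ exp (-((e + 1 : ℕ) : ℤ)) := by
        convert hlt using 2; push_cast; ring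
      rw [Q.intValuation_le_pow_iff_dvd, ← hmap] at h1
      rw [hfac, pow_succ] at h1
      have hQe0 : Q.asIdeal ^ e ≠ 0 := pow_ne_zero _ Q.ne_bot
      have h2 : Q.asIdeal ∣ Q' := (mul_dvd_mul_iff_left hQe0).mp h1
      have h3 : Q' ≤ Q.asIdeal := Ideal.le_of_dvd h2
      rw [sup_eq_left.mpr h3] at hsup
      exact Q.isPrime.ne_top hsup
  · intro d hd
    have hd' : d ∈ Q.asIdeal ^ (e - 1) := Ideal.le_of_dvd F1 hd
    have := (Q.intValuation_le_pow_iff_mem d (e - 1)).mpr hd'
    convert this using 2
    have : 1 ≤ e := Nat.one_le_iff_ne_zero.mpr he0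
    push_cast [this]
    ring
  · by_contra hcon
    push Not at hcon
    apply F2
    rw [Ideal.dvd_iff_le]
    intro d hd
    exact (Q.intValuation_le_pow_iff_mem d e).mp (hcon d hd)

/-- **Valuative criterion for the trace dual (tame case).**  -/
theorem dw_mem_traceDual_iff_valuation [IsPrincipalIdealRing A]
    (hchar : ∀ p : Ideal A, p.IsMaximal → CharZero (A ⧸ p)) (h : L) :
    h ∈ Submodule.traceDual A K (1 : Submodule B L) ↔
      ∀ (Q : HeightOneSpectrum B) (t : A), t ≠ 0 → (Ideal.span {t}).IsMaximal →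
        algebraMap A B t ∈ Q.asIdeal → Q.valuation L (h * algebraMap A L t) < 1 := by
  rw [dw_mem_traceDual_iff_mul_mem A K h]
  constructor
  · intro H Q t ht hmax htQ
    have := hchar _ hmax
    obtain ⟨e, he0, hval, -, d, hd, hdval⟩ := dw_local_different A K (L := L) Q t ht htQ
    obtain ⟨b, hb⟩ := H d hd
    have h1 : Q.valuation L h * Q.intValuation d ≤ 1 := by
      rw [← Q.valuation_of_algebraMap (K := L), ← map_mul, hb]
      exact Q.valuation_le_one b
    have h2 : exp (-((e : ℤ) - 1)) ≤ Q.intValuation d := by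
      by_contra hlt
      push Not at hlt
      apply hdval
      have := (dw_lt_exp_iff _ _).mp hlt
      convert this using 2
      ring
    have h3 : Q.valuation L h * exp (-((e : ℤ) - 1)) ≤ 1 :=
      le_trans (mul_le_mul_right h2 _) h1
    rw [IsScalarTower.algebraMap_apply A B L, map_mul, Q.valuation_of_algebraMap, hval]
    have h4 : exp (-(e : ℤ)) = exp (-((e : ℤ) - 1)) * exp (-1 : ℤ) := by
      rw [← exp_add]; congr 1; ring
    rw [h4, ← mul_assoc]
    calc Q.valuation L h * exp (-((e : ℤ) - 1)) * exp (-1 : ℤ) ≤ 1 * exp (-1 : ℤ) :=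
          mul_le_mul_left h3 _
      _ < 1 := by
          rw [one_mul, ← exp_zero, exp_lt_exp]; norm_num
  · intro H d hd
    have hmem : h * algebraMap B L d ∈ (algebraMap B L).range := by
      apply HeightOneSpectrum.mem_integers_of_valuation_le_one
      intro Q
      have hint : Algebra.IsIntegral A B := IsIntegralClosure.isIntegral_algebra A L
      obtain ⟨t, ht, hmax, htQ⟩ := dw_exists_generator_under (A := A) Q
      have := hchar _ hmax
      obtain ⟨e, he0, hval, hall, -⟩ := dw_local_different A K (L := L) Q t ht htQ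
      have h1 := H Q t ht hmax htQ
      rw [IsScalarTower.algebraMap_apply A B L, map_mul, Q.valuation_of_algebraMap, hval] at h1
      rw [map_mul, Q.valuation_of_algebraMap]
      have h2 := hall d hd
      -- v h * exp (-e) < 1  →  v h ≤ exp (e - 1)
      have h3 : Q.valuation L h ≤ exp ((e : ℤ) - 1) := by
        rw [← dw_lt_exp_iff]
        have h5 : Q.valuation L h = Q.valuation L h * exp (-(e : ℤ)) * exp (e : ℤ) := by
          rw [mul_assoc, ← exp_add]; simp
        rw [h5]
        calc Q.valuation L h * exp (-(e : ℤ)) * exp (e : ℤ) < 1 * exp (e : ℤ) :=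
              mul_lt_mul_of_pos_right h1 (exp_pos)
          _ = exp (e : ℤ) := one_mul _
      calc Q.valuation L h * Q.intValuation d ≤ exp ((e : ℤ) - 1) * exp (-((e : ℤ) - 1)) :=
            mul_le_mul' h3 h2
        _ = 1 := by rw [← exp_add]; simp
    obtain ⟨b, hb⟩ := hmem
    exact ⟨b, hb.symm⟩

end

end Fermat.Agent.S20
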