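import Mathlib
import Fermat.Agent.S24.Hurwitz.FunctionField
import Fermat.Agent.S20.Dual.Membership

/-!
# S20 / Dedekind-Weber (DW-b): trace duals in place language

* abstract form: `A ⊆ k` a PID with fraction field `k`, `K ⊆ A`, `F/k` finite, `Pl` the family of
  places of `F` "over `A`": `dw_isIntegral_iff`, `dw_mem_range_iff`, `dw_dual_iff`;
* finite places of `F/K(x)`: `dw_fin_tame` (b1), `dw_fin_trace` (b2).
-/

set_option autoImplicit false
set_option linter.unusedSectionVars false

namespace Fermat.Agent.S20

open AlgebraicCurve IntermediateField Polynomial WithZero IsDedekindDomain Fermat.Agent.S24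

universe u v
variable {K : Type u} {F : Type v} [Field K] [Field F] [Algebra K F]


theorem dw_adicValuation_le_one (v : Place K F) {f : F} (hf : f ∈ v.toValuationSubring) :
    v.adicValuation f ≤ 1 :=
  v.heightOneSpectrum.valuation_le_one (K := F) ⟨f, hf⟩

theorem dw_mem_iff_adicValuation_le_one (v : Place K F) (f : F) :
    f ∈ v.toValuationSubring ↔ v.adicValuation f ≤ 1 := by
  refine ⟨dw_adicValuation_le_one v, fun h => ?_⟩
  rcases eq_or_ne f 0 with rfl | hf
  · exact v.toValuationSubring.zero_mem
  rw [hw_mem_iff_ord_nonneg v hf]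
  rw [hw_adicValuation_eq_exp v hf, ← exp_zero, exp_le_exp] at h
  omega

theorem dw_mem_iff_ord_nonneg (v : Place K F) (f : F) :
    f ∈ v.toValuationSubring ↔ 0 ≤ v.ord f := by
  rcases eq_or_ne f 0 with rfl | hf
  · simp [v.toValuationSubring.zero_mem]
  exact hw_mem_iff_ord_nonneg v hf

theorem dw_adicValuation_lt_one_iff (v : Place K F) {f : F} (hf : f ≠ 0) :
    v.adicValuation f < 1 ↔ 0 < v.ord f := by
  rw [hw_adicValuation_eq_exp v hf, ← exp_zero, exp_lt_exp]
  omega


theorem dw_mem_of_ord_sub_pos (v : Place K F) {y : F} {c : K}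
    (h : 0 < v.ord (y - algebraMap K F c)) : y ∈ v.toValuationSubring := by
  have h1 : y - algebraMap K F c ∈ v.toValuationSubring :=
    (dw_mem_iff_ord_nonneg v _).mpr h.le
  have := v.toValuationSubring.add_mem _ _ h1 (v.algebraMap_mem' c)
  simpa using this

section Abstract

variable (k : Type*) [Field k] [Algebra K k] [Algebra k F] [IsScalarTower K k F]
variable (A : Type*) [CommRing A] [IsDomain A] [Algebra K A] [Algebra A k] [IsScalarTower K A k]
  [IsFractionRing A k] [Algebra A F] [IsScalarTower A k F] [IsScalarTower K A F]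

omit [IsDomain A] [Algebra K A] [IsScalarTower K A F] in
/-- Elements integral over `A` lie in the valuation ring of every place containing `A`. -/
theorem dw_mem_of_isIntegral (v : Place K F)
    (hA : ∀ a : A, algebraMap A F a ∈ v.toValuationSubring) {f : F} (hf : IsIntegral A f) :
    f ∈ v.toValuationSubring := by
  let ι : A →+* v.toValuationSubring :=
    (algebraMap A F).codRestrict v.toValuationSubring.toSubring hA
  obtain ⟨p, hpm, hp0⟩ := hf
  have hintO : IsIntegral v.toValuationSubring f := by
    refine ⟨p.map ι, hpm.map ι, ?_⟩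
    rw [eval₂_map]
    have : (algebraMap v.toValuationSubring F).comp ι = algebraMap A F := by
      ext y; rfl
    rw [this]
    exact hp0
  obtain ⟨y, hy⟩ := IsIntegrallyClosed.isIntegral_iff.mp hintO
  rw [← hy]
  exact y.2

end Abstract

section Abstract2

variable [CharZero K]
variable (k : Type*) [Field k] [Algebra K k] [Algebra k F] [IsScalarTower K k F]
  [FiniteDimensional k F]
variable (A : Type*) [CommRing A] [IsDomain A] [IsPrincipalIdealRing A] [Algebra K A] [Algebra A k]
  [IsScalarTower K A k] [IsFractionRing A k] [Algebra A F] [IsScalarTower A k F]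
  [IsScalarTower K A F]
variable (Pl : Set (Place K F))

include k in
/-- `f` is integral over `A` iff it is regular at all places of the family `Pl`. -/
theorem dw_isIntegral_iff
    (H1 : ∀ v ∈ Pl, ∀ a : A, algebraMap A F a ∈ v.toValuationSubring)
    (H2 : ∀ w : Place K F, (∀ f : F, IsIntegral A f → f ∈ w.toValuationSubring) → w ∈ Pl)
    (f : F) : IsIntegral A f ↔ ∀ v ∈ Pl, f ∈ v.toValuationSubring := by
  have : CharZero k := charZero_of_injective_algebraMap (algebraMap K k).injective
  have : Algebra.IsSeparable k F := inferInstance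
  have := integralClosure.isDedekindDomain A k F
  have : IsFractionRing (integralClosure A F) F :=
    integralClosure.isFractionRing_of_finite_extension k F
  constructor
  · intro hf v hv
    exact dw_mem_of_isIntegral (K := K) A v (H1 v hv) hf
  · intro hf
    have hmem : f ∈ (algebraMap (integralClosure A F) F).range := by
      apply HeightOneSpectrum.mem_integers_of_valuation_le_one
      intro Q
      have hQ : hw_placeOfPrime (K := K) (F := F) (integralClosure A F) Q ∈ Pl := by
        apply H2
        intro g hg
        exact hw_placeOfPrime_algebraMap_mem (K := K) (F := F) (integralClosure A F) Q ⟨g, hg⟩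
      have := hf _ hQ
      rw [hw_placeOfPrime_toValuationSubring] at this
      exact (Valuation.mem_valuationSubring_iff _ _).mp this
    obtain ⟨b, rfl⟩ := hmem
    exact b.2

include K in
/-- An element of `k` is in `A` iff it is regular at all places of the family `Pl`. -/
theorem dw_mem_range_iff
    (H1 : ∀ v ∈ Pl, ∀ a : A, algebraMap A F a ∈ v.toValuationSubring)
    (H2 : ∀ w : Place K F, (∀ f : F, IsIntegral A f → f ∈ w.toValuationSubring) → w ∈ Pl)
    (r : k) : r ∈ (algebraMap A k).range ↔ ∀ v ∈ Pl, algebraMap k F r ∈ v.toValuationSubring := by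
  constructor
  · rintro ⟨a, rfl⟩ v hv
    rw [← IsScalarTower.algebraMap_apply A k F]
    exact H1 v hv a
  · intro hr
    have h1 : IsIntegral A (algebraMap k F r) := (dw_isIntegral_iff k A Pl H1 H2 _).mpr hr
    have h2 : IsIntegral A r := (isIntegral_algebraMap_iff (algebraMap k F).injective).mp h1
    obtain ⟨a, ha⟩ := IsIntegrallyClosed.isIntegral_iff.mp h2
    exact ⟨a, ha⟩

omit [CharZero K] [IsDomain A] [IsPrincipalIdealRing A] [Algebra K A] [IsScalarTower K A F] in
/-- Two generators of maximal ideals of `A` lying in the maximal ideal of the same place have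
the same valuation. -/
theorem dw_adicValuation_eq_of_maximal (v : Place K F)
    (hA : ∀ a : A, algebraMap A F a ∈ v.toValuationSubring) {t t' : A}
    (hmax : (Ideal.span {t}).IsMaximal) (hmax' : (Ideal.span {t'}).IsMaximal)
    (ht : v.adicValuation (algebraMap A F t) < 1) (ht' : v.adicValuation (algebraMap A F t') < 1) :
    v.adicValuation (algebraMap A F t) = v.adicValuation (algebraMap A F t') := by
  -- the ideal of elements of `A` with valuation `< 1`
  let P : Ideal A :=
    { carrier := {a | v.adicValuation (algebraMap A F a) < 1}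
      add_mem' := by
        intro a b ha hb
        simp only [Set.mem_ofPred_eq, map_add] at ha hb ⊢
        exact lt_of_le_of_lt (Valuation.map_add _ _ _) (max_lt ha hb)
      zero_mem' := by simp
      smul_mem' := by
        intro r a ha
        simp only [Set.mem_ofPred_eq, smul_eq_mul, map_mul] at ha ⊢
        have hr : v.adicValuation (algebraMap A F r) ≤ 1 := dw_adicValuation_le_one v (hA r)
        calc v.adicValuation (algebraMap A F r) * v.adicValuation (algebraMap A F a)
            ≤ 1 * v.adicValuation (algebraMap A F a) := mul_le_mul_left hr _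
          _ < 1 := by rwa [one_mul] }
  have hP : P ≠ ⊤ := by
    intro h
    have : (1 : A) ∈ P := by rw [h]; trivial
    have h1 : v.adicValuation (algebraMap A F 1) < 1 := this
    simp at h1
  have e1 : Ideal.span {t} = P :=
    hmax.eq_of_le hP (by rw [Ideal.span_le, Set.singleton_subset_iff]; exact ht)
  have e2 : Ideal.span {t'} = P :=
    hmax'.eq_of_le hP (by rw [Ideal.span_le, Set.singleton_subset_iff]; exact ht')
  have hle : ∀ {s s' : A}, Ideal.span {s} = Ideal.span {s'} →
      v.adicValuation (algebraMap A F s) ≤ v.adicValuation (algebraMap A F s') := by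
    intro s s' hss
    have : s ∈ Ideal.span {s'} := by rw [← hss]; exact Ideal.mem_span_singleton_self s
    obtain ⟨r, rfl⟩ := Ideal.mem_span_singleton'.mp this
    rw [map_mul, map_mul]
    have hr : v.adicValuation (algebraMap A F r) ≤ 1 := dw_adicValuation_le_one v (hA r)
    calc v.adicValuation (algebraMap A F r) * v.adicValuation (algebraMap A F s')
        ≤ 1 * v.adicValuation (algebraMap A F s') := mul_le_mul_left hr _
      _ = _ := one_mul _
  exact le_antisymm (hle (e1.trans e2.symm)) (hle (e2.trans e1.symm))

/-- **Abstract place form of the valuative criterion for the trace dual.** -/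
theorem dw_dual_iff
    (H1 : ∀ v ∈ Pl, ∀ a : A, algebraMap A F a ∈ v.toValuationSubring)
    (H2 : ∀ w : Place K F, (∀ f : F, IsIntegral A f → f ∈ w.toValuationSubring) → w ∈ Pl)
    (h : F) :
    (∀ f : F, (∀ v ∈ Pl, f ∈ v.toValuationSubring) →
        ∀ v ∈ Pl, algebraMap k F (Algebra.trace k F (h * f)) ∈ v.toValuationSubring) ↔
      ∀ v ∈ Pl, ∀ t : A, t ≠ 0 → (Ideal.span {t}).IsMaximal →
        v.adicValuation (algebraMap A F t) < 1 → v.adicValuation (h * algebraMap A F t) < 1 := by
  have : CharZero k := charZero_of_injective_algebraMap (algebraMap K k).injective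
  have : Algebra.IsSeparable k F := inferInstance
  have := integralClosure.isDedekindDomain A k F
  have : IsFractionRing (integralClosure A F) F :=
    integralClosure.isFractionRing_of_finite_extension k F
  have : Module.Finite A (integralClosure A F) := IsIntegralClosure.finite A k F _
  have : Module.IsTorsionFree A F := by
    rw [Module.isTorsionFree_iff_faithfulSMul, faithfulSMul_iff_algebraMap_injective,
      IsScalarTower.algebraMap_eq A k F]
    exact (algebraMap k F).injective.comp (IsFractionRing.injective A k)
  have hchar : ∀ p : Ideal A, p.IsMaximal → CharZero (A ⧸ p) := by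
    intro p hp
    exact charZero_of_injective_algebraMap (algebraMap K (A ⧸ p)).injective
  have key := dw_mem_traceDual_iff_valuation A k (L := F) (B := integralClosure A F) hchar h
  -- left hand sides agree
  have hL : h ∈ Submodule.traceDual A k (1 : Submodule (integralClosure A F) F) ↔
      (∀ f : F, (∀ v ∈ Pl, f ∈ v.toValuationSubring) →
        ∀ v ∈ Pl, algebraMap k F (Algebra.trace k F (h * f)) ∈ v.toValuationSubring) := by
    rw [Submodule.mem_traceDual]
    constructor
    · intro H f hf
      have hfB : f ∈ (1 : Submodule (integralClosure A F) F) := by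
        rw [Submodule.mem_one]
        exact ⟨⟨f, (dw_isIntegral_iff k A Pl H1 H2 f).mpr hf⟩, rfl⟩
      have := H f hfB
      rw [Algebra.traceForm_apply] at this
      exact (dw_mem_range_iff k A Pl H1 H2 _).mp this
    · intro H f hf
      rw [Submodule.mem_one] at hf
      obtain ⟨b, rfl⟩ := hf
      rw [Algebra.traceForm_apply]
      apply (dw_mem_range_iff k A Pl H1 H2 _).mpr
      exact H _ ((dw_isIntegral_iff k A Pl H1 H2 _).mp b.2)
  rw [← hL, key]
  constructor
  · intro H v hv t ht hmax hvt
    have hB : ∀ b : integralClosure A F,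
        algebraMap (integralClosure A F) F b ∈ v.toValuationSubring :=
      fun b => dw_mem_of_isIntegral (K := K) A v (H1 v hv) b.2
    have hv' := hw_placeOfPrime_primeOfPlace v hB
    set Q := hw_primeOfPlace v hB with hQ
    have hval : v.adicValuation = Q.valuation F := by
      rw [← hv', hw_placeOfPrime_adicValuation]
    rw [hval] at hvt ⊢
    have htQ : algebraMap A (integralClosure A F) t ∈ Q.asIdeal := by
      rw [← Q.valuation_lt_one_iff_mem (K := F)]
      change Q.valuation F (algebraMap (integralClosure A F) F
        (algebraMap A (integralClosure A F) t)) < 1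
      rw [← IsScalarTower.algebraMap_apply]
      exact hvt
    exact H Q t ht hmax htQ
  · intro H Q t ht hmax htQ
    have hQ : hw_placeOfPrime (K := K) (F := F) (integralClosure A F) Q ∈ Pl := by
      apply H2
      intro g hg
      exact hw_placeOfPrime_algebraMap_mem (K := K) (F := F) (integralClosure A F) Q ⟨g, hg⟩
    have := H _ hQ t ht hmax
    rw [hw_placeOfPrime_adicValuation] at this
    apply this
    rw [IsScalarTower.algebraMap_apply A (integralClosure A F) F, Q.valuation_lt_one_iff_mem]
    exact htQ

end Abstract2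

section Finite

open scoped IntermediateField.algebraAdjoinAdjoin

variable [IsAlgClosed K] [CharZero K] {x : F}

/-- `x - c` as an element of `K[x]`. -/
noncomputable def dw_subC (x : F) (c : K) : Algebra.adjoin K ({x} : Set F) :=
  ⟨x, Algebra.self_mem_adjoin_singleton K x⟩ - algebraMap K _ c

omit [IsAlgClosed K] [CharZero K] in
theorem dw_subC_coe (x : F) (c : K) :
    algebraMap (Algebra.adjoin K ({x} : Set F)) F (dw_subC x c) = x - algebraMap K F c := rfl

omit [IsAlgClosed K] [CharZero K] in
theorem dw_irreducible_subC (hx : Transcendental K x) (c : K) : Irreducible (dw_subC x c) := by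
  have htpoly : dw_subC x c = hw_polyEquiv hx (X - C c) := by
    apply Subtype.ext
    rw [hw_polyEquiv_coe]
    simp [dw_subC]
  rw [htpoly]
  exact (MulEquiv.irreducible_iff (hw_polyEquiv hx)).mpr (irreducible_X_sub_C c)

omit [IsAlgClosed K] [CharZero K] in
theorem dw_isMaximal_subC (hx : Transcendental K x) (c : K) :
    (Ideal.span {dw_subC x c}).IsMaximal := by
  have hPID := hw_isPrincipalIdealRing_adjoin hx
  exact PrincipalIdealRing.isMaximal_of_irreducible (dw_irreducible_subC hx c)

omit [IsAlgClosed K] [CharZero K] in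
theorem dw_fin_H1 (v : Place K F) (hv : 0 ≤ v.ord x) (a : Algebra.adjoin K ({x} : Set F)) :
    algebraMap (Algebra.adjoin K ({x} : Set F)) F a ∈ v.toValuationSubring :=
  hw_coe_mem_of_mem_integralClosure x v ((dw_mem_iff_ord_nonneg v x).mpr hv)
    ⟨algebraMap _ F a, isIntegral_algebraMap⟩

omit [IsAlgClosed K] [CharZero K] in
theorem dw_fin_H2 (w : Place K F)
    (hw : ∀ f : F, IsIntegral (Algebra.adjoin K ({x} : Set F)) f → f ∈ w.toValuationSubring) :
    0 ≤ w.ord x := by
  rw [← dw_mem_iff_ord_nonneg]
  exact hw x (isIntegral_algebraMap (x := (⟨x, Algebra.self_mem_adjoin_singleton K x⟩ :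
    Algebra.adjoin K ({x} : Set F))))

/-- **(b1), finite places, tame direction.** If `Tr(h B) ⊆ B` then `ord_v h ≥ 1 - e_v` at all
finite places. -/
theorem dw_fin_tame (hx : Transcendental K x) [FiniteDimensional K⟮x⟯ F] (h : F)
    (H : ∀ f : F, (∀ v : Place K F, 0 ≤ v.ord x → 0 ≤ v.ord f) →
      ∀ v : Place K F, 0 ≤ v.ord x → 0 ≤ v.ord ((Algebra.trace K⟮x⟯ F (h * f) : K⟮x⟯) : F))
    (v : Place K F) (c : K) (hvc : 0 < v.ord (x - algebraMap K F c)) :
    v.adicValuation (h * (x - algebraMap K F c)) < 1 := by
  have hPID := hw_isPrincipalIdealRing_adjoin hx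
  have key := (dw_dual_iff K⟮x⟯ (Algebra.adjoin K ({x} : Set F)) {v | 0 ≤ v.ord x}
    (fun v hv a => dw_fin_H1 v hv a) (fun w hw => dw_fin_H2 w hw) h).mp (by
      intro f hf v hv
      rw [dw_mem_iff_ord_nonneg]
      exact H f (fun w hw => (dw_mem_iff_ord_nonneg w f).mp (hf w hw)) v hv)
  have hv : 0 ≤ v.ord x := (dw_mem_iff_ord_nonneg v x).mp (dw_mem_of_ord_sub_pos v hvc)
  have hne : x - algebraMap K F c ≠ 0 := by
    intro h0; rw [h0] at hvc; simp at hvc
  have := key v hv (dw_subC x c) (dw_irreducible_subC hx c).ne_zero (dw_isMaximal_subC hx c)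
    (by rw [dw_subC_coe, dw_adicValuation_lt_one_iff v hne]; exact hvc)
  rwa [dw_subC_coe] at this

/-- **(b2), finite places.** If `ord_v h ≥ 1 - e_v` at all finite places then `Tr(h B) ⊆ B`. -/
theorem dw_fin_trace (hx : Transcendental K x) [FiniteDimensional K⟮x⟯ F] (h : F)
    (H : ∀ (v : Place K F) (c : K), 0 < v.ord (x - algebraMap K F c) →
      v.adicValuation (h * (x - algebraMap K F c)) < 1)
    (f : F) (hf : ∀ v : Place K F, 0 ≤ v.ord x → 0 ≤ v.ord f) (v : Place K F)
    (hv : 0 ≤ v.ord x) : 0 ≤ v.ord ((Algebra.trace K⟮x⟯ F (h * f) : K⟮x⟯) : F) := by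
  have hPID := hw_isPrincipalIdealRing_adjoin hx
  have key := (dw_dual_iff K⟮x⟯ (Algebra.adjoin K ({x} : Set F)) {v | 0 ≤ v.ord x}
    (fun v hv a => dw_fin_H1 v hv a) (fun w hw => dw_fin_H2 w hw) h).mpr (by
      intro v hv t ht hmax hvt
      have hxv : x ∈ v.toValuationSubring := (dw_mem_iff_ord_nonneg v x).mpr hv
      obtain ⟨c, hc | hc⟩ := hw_exists_const x v hxv
      · exact absurd (hc ▸ isAlgebraic_algebraMap c) hx
      have hne : x - algebraMap K F c ≠ 0 := by
        intro h0; rw [h0] at hc; simp at hc
      have e := dw_adicValuation_eq_of_maximal (Algebra.adjoin K ({x} : Set F)) v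
        (fun a => dw_fin_H1 v hv a) hmax (dw_isMaximal_subC hx c) hvt
        (by rw [dw_subC_coe, dw_adicValuation_lt_one_iff v hne]; exact hc)
      rw [map_mul, e, ← map_mul, dw_subC_coe]
      exact H v c hc)
  rw [← dw_mem_iff_ord_nonneg]
  exact key f (fun w hw => (dw_mem_iff_ord_nonneg w f).mpr (hf w hw)) v hv

end Finite

end Fermat.Agent.S20
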