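import Mathlib
import Fermat.Agent.S20.Dual.Places

/-!
# S20 / Dedekind-Weber (DW-b): trace duals, local form at `x = c` and at infinity

* `dw_loc_tame`, `dw_loc_trace`: the criterion for the semilocal ring of the places over `x = c`;
* `dw_inf_tame` (b3), `dw_inf_trace` (b4): the criterion at the places over infinity.
-/

set_option autoImplicit false
set_option linter.unusedSectionVars false

namespace Fermat.Agent.S20

open AlgebraicCurve IntermediateField Polynomial WithZero IsDedekindDomain Fermat.Agent.S24
open scoped IntermediateField.algebraAdjoinAdjoin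

universe u v
variable {K : Type u} {F : Type v} [Field K] [Field F] [Algebra K F]

/-- In the abstract setting: an element of `A` of valuation `< 1` lies in the maximal ideal
`(t)` if `t` has valuation `< 1`. -/
theorem dw_mem_span_of_lt_one (A : Type*) [CommRing A] [Algebra A F] (v : Place K F)
    (hA : ∀ a : A, algebraMap A F a ∈ v.toValuationSubring) {t : A}
    (hmax : (Ideal.span {t}).IsMaximal) (ht : v.adicValuation (algebraMap A F t) < 1) {a : A}
    (ha : v.adicValuation (algebraMap A F a) < 1) : a ∈ Ideal.span {t} := by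
  let P : Ideal A :=
    { carrier := {a | v.adicValuation (algebraMap A F a) < 1}
      add_mem' := by
        intro a b ha hb
        simp only [Set.mem_ofPred_eq, map_add] at ha hb ⊢
        exact lt_of_le_of_lt (Valuation.map_add _ _ _) (max_lt ha hb)
      zero_mem' := by simp
      smul_mem' := by
        intro r a ha
        simp only [Set.mem_ofPred_eq, smul_eq_mul, map_mul] at ha ⊢
        have hr : v.adicValuation (algebraMap A F r) ≤ 1 := dw_adicValuation_le_one v (hA r)
        calc v.adicValuation (algebraMap A F r) * v.adicValuation (algebraMap A F a)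
            ≤ 1 * v.adicValuation (algebraMap A F a) := mul_le_mul_left hr _
          _ < 1 := by rwa [one_mul] }
  have hP : P ≠ ⊤ := by
    intro h
    have : (1 : A) ∈ P := by rw [h]; trivial
    have h1 : v.adicValuation (algebraMap A F 1) < 1 := this
    simp at h1
  have e1 : Ideal.span {t} = P :=
    hmax.eq_of_le hP (by rw [Ideal.span_le, Set.singleton_subset_iff]; exact ht)
  rw [e1]
  exact ha

theorem dw_trace_congr {E E' : IntermediateField K F} (h : E = E') (z : F) :
    ((Algebra.trace E F z : E) : F) = ((Algebra.trace E' F z : E') : F) := by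
  subst h; rfl

theorem dw_isScalarTower_place {k : Type*} [Field k] [Algebra K k] [Algebra k F]
    [IsScalarTower K k F] (P : Place K k) : IsScalarTower K P.toValuationSubring F :=
  IsScalarTower.of_algebraMap_eq fun a => IsScalarTower.algebraMap_apply K k F a

section Local

variable [IsAlgClosed K] [CharZero K] {x : F}

/-- The prime `(x - c)` of `K[x]`. -/
noncomputable def dw_primeAt (hx : Transcendental K x) (c : K) :
    HeightOneSpectrum (Algebra.adjoin K ({x} : Set F)) where
  asIdeal := Ideal.span {dw_subC x c}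
  isPrime := (dw_isMaximal_subC hx c).isPrime
  ne_bot := by
    rw [Ne, Ideal.span_singleton_eq_bot]
    exact (dw_irreducible_subC hx c).ne_zero

/-- The place of `K(x)` at `x = c`. -/
noncomputable def dw_placeAt (hx : Transcendental K x) (c : K) : Place K K⟮x⟯ :=
  haveI := hw_isPrincipalIdealRing_adjoin hx
  hw_placeOfPrime (K := K) (F := K⟮x⟯) (Algebra.adjoin K ({x} : Set F)) (dw_primeAt hx c)

/-- The normalised valuation of `K(x)` at `x = c`. -/
noncomputable def dw_valAt (hx : Transcendental K x) (c : K) : Valuation K⟮x⟯ ℤᵐ⁰ :=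
  haveI := hw_isPrincipalIdealRing_adjoin hx
  (dw_primeAt hx c).valuation K⟮x⟯

theorem dw_mem_placeAt_iff (hx : Transcendental K x) (c : K) (r : K⟮x⟯) :
    r ∈ (dw_placeAt hx c).toValuationSubring ↔ dw_valAt hx c r ≤ 1 :=
  Iff.rfl

theorem dw_placeAt_adicValuation (hx : Transcendental K x) (c : K) :
    (dw_placeAt hx c).adicValuation = dw_valAt hx c := by
  have := hw_isPrincipalIdealRing_adjoin hx
  exact hw_placeOfPrime_adicValuation _ _

theorem dw_valAt_subC (hx : Transcendental K x) (c : K) :
    dw_valAt hx c (algebraMap (Algebra.adjoin K ({x} : Set F)) K⟮x⟯ (dw_subC x c)) =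
      exp (-1 : ℤ) := by
  have := hw_isPrincipalIdealRing_adjoin hx
  change (dw_primeAt hx c).valuation K⟮x⟯ _ = _
  rw [HeightOneSpectrum.valuation_of_algebraMap]
  exact HeightOneSpectrum.intValuation_singleton _ (dw_irreducible_subC hx c).ne_zero rfl

theorem dw_exists_primeCompl (hx : Transcendental K x) (c : K) (r : K⟮x⟯)
    (hr : dw_valAt hx c r ≤ 1) :
    ∃ n d : Algebra.adjoin K ({x} : Set F), d ∉ Ideal.span {dw_subC x c} ∧
      r * algebraMap _ K⟮x⟯ d = algebraMap _ K⟮x⟯ n := by
  have := hw_isPrincipalIdealRing_adjoin hx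
  obtain ⟨n, d, hnd⟩ := (dw_primeAt hx c).exists_primeCompl_mul_eq_of_integer r hr
  exact ⟨n, d, d.2, hnd⟩

theorem dw_loc_H1 (hx : Transcendental K x) (c : K) (v : Place K F)
    (hv : 0 < v.ord (x - algebraMap K F c)) (a : (dw_placeAt hx c).toValuationSubring) :
    algebraMap (dw_placeAt hx c).toValuationSubring F a ∈ v.toValuationSubring := by
  have ha : dw_valAt hx c (a : K⟮x⟯) ≤ 1 := (dw_mem_placeAt_iff hx c _).mp a.2
  obtain ⟨n, d, hd, hnd⟩ := dw_exists_primeCompl hx c (a : K⟮x⟯) ha
  have hxv : 0 ≤ v.ord x := (dw_mem_iff_ord_nonneg v x).mp (dw_mem_of_ord_sub_pos v hv)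
  have hne : x - algebraMap K F c ≠ 0 := by
    intro h0; rw [h0] at hv; simp at hv
  have hF : algebraMap K⟮x⟯ F (a : K⟮x⟯) * algebraMap (Algebra.adjoin K ({x} : Set F)) F d =
      algebraMap (Algebra.adjoin K ({x} : Set F)) F n := by
    have := congrArg (algebraMap K⟮x⟯ F) hnd
    rw [map_mul, ← IsScalarTower.algebraMap_apply, ← IsScalarTower.algebraMap_apply] at this
    exact this
  have hd1 : v.adicValuation (algebraMap (Algebra.adjoin K ({x} : Set F)) F d) = 1 := by
    refine le_antisymm (dw_adicValuation_le_one v (dw_fin_H1 v hxv d)) ?_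
    by_contra hlt
    push Not at hlt
    exact hd (dw_mem_span_of_lt_one (Algebra.adjoin K ({x} : Set F)) v
      (fun a => dw_fin_H1 v hxv a) (dw_isMaximal_subC hx c)
      (by rw [dw_subC_coe, dw_adicValuation_lt_one_iff v hne]; exact hv) hlt)
  rw [dw_mem_iff_adicValuation_le_one]
  change v.adicValuation (algebraMap K⟮x⟯ F (a : K⟮x⟯)) ≤ 1
  have : v.adicValuation (algebraMap K⟮x⟯ F (a : K⟮x⟯)) =
      v.adicValuation (algebraMap (Algebra.adjoin K ({x} : Set F)) F n) := by
    rw [← hF, map_mul, hd1, mul_one]
  rw [this]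
  exact dw_adicValuation_le_one v (dw_fin_H1 v hxv n)

/-- `x - c` as an element of the local ring at `c`. -/
noncomputable def dw_unif (hx : Transcendental K x) (c : K) :
    (dw_placeAt hx c).toValuationSubring :=
  ⟨algebraMap (Algebra.adjoin K ({x} : Set F)) K⟮x⟯ (dw_subC x c), by
    rw [dw_mem_placeAt_iff, dw_valAt_subC, ← exp_zero, exp_le_exp]; norm_num⟩

theorem dw_unif_coe (hx : Transcendental K x) (c : K) :
    algebraMap (dw_placeAt hx c).toValuationSubring F (dw_unif hx c) = x - algebraMap K F c :=
  rfl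

theorem dw_unif_ne_zero (hx : Transcendental K x) (c : K) : dw_unif hx c ≠ 0 := by
  intro h
  have := congrArg (algebraMap (dw_placeAt hx c).toValuationSubring F) h
  rw [dw_unif_coe, map_zero] at this
  have h2 : dw_subC x c = 0 := by
    apply Subtype.ext
    exact this
  exact (dw_irreducible_subC hx c).ne_zero h2

theorem dw_loc_H2 (hx : Transcendental K x) [FiniteDimensional K⟮x⟯ F] (c : K) (w : Place K F)
    (hw : ∀ f : F, IsIntegral (dw_placeAt hx c).toValuationSubring f → f ∈ w.toValuationSubring) :
    0 < w.ord (x - algebraMap K F c) := by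
  have hle : (dw_placeAt hx c).toValuationSubring ≤
      w.toValuationSubring.comap (algebraMap K⟮x⟯ F) := by
    intro a ha
    rw [ValuationSubring.mem_comap]
    exact hw _ (isIntegral_algebraMap (x := (⟨a, ha⟩ : (dw_placeAt hx c).toValuationSubring)))
  rcases ValuationSubring.eq_self_or_eq_top_of_le hle with h | h
  · by_contra hnot
    have hne : x - algebraMap K F c ≠ 0 := by
      intro h0
      have : dw_subC x c = 0 := Subtype.ext h0
      exact (dw_irreducible_subC hx c).ne_zero this
    have hmem : x - algebraMap K F c ∈ w.toValuationSubring := by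
      rw [← dw_unif_coe hx c]
      exact hw _ isIntegral_algebraMap
    have h0 : w.ord (x - algebraMap K F c) = 0 := by
      have := (dw_mem_iff_ord_nonneg w _).mp hmem
      omega
    have hinv : (x - algebraMap K F c)⁻¹ ∈ w.toValuationSubring := by
      rw [dw_mem_iff_ord_nonneg, Place.ord_inv, h0]
      simp
    have h1 : (algebraMap (Algebra.adjoin K ({x} : Set F)) K⟮x⟯ (dw_subC x c))⁻¹ ∈
        (dw_placeAt hx c).toValuationSubring := by
      rw [h, ValuationSubring.mem_comap, map_inv₀]
      exact hinv
    rw [dw_mem_placeAt_iff, map_inv₀, dw_valAt_subC, ← exp_neg, ← exp_zero, exp_le_exp] at h1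
    norm_num at h1
  · exfalso
    apply w.ne_top'
    rw [eq_top_iff]
    intro f _
    refine dw_mem_of_isIntegral (K := K) K⟮x⟯ w (fun r => ?_) (Algebra.IsIntegral.isIntegral f)
    have : r ∈ w.toValuationSubring.comap (algebraMap K⟮x⟯ F) := by
      rw [h]; exact ValuationSubring.mem_top r
    exact this

theorem dw_loc_isMaximal (hx : Transcendental K x) (c : K) :
    (Ideal.span {dw_unif hx c}).IsMaximal := by
  have hval : (dw_placeAt hx c).adicValuation ((dw_unif hx c : (dw_placeAt hx c).toValuationSubring) :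
      K⟮x⟯) = exp (-1 : ℤ) := by
    rw [dw_placeAt_adicValuation]
    exact dw_valAt_subC hx c
  have hm : Ideal.span {dw_unif hx c} =
      IsLocalRing.maximalIdeal (dw_placeAt hx c).toValuationSubring := by
    apply le_antisymm
    · rw [Ideal.span_le, Set.singleton_subset_iff, SetLike.mem_coe, IsLocalRing.mem_maximalIdeal,
        mem_nonunits_iff, ← (dw_placeAt hx c).adicValuation_coe_eq_one_iff, hval, ← exp_zero]
      intro h
      have := exp_injective h
      norm_num at this
    · intro a ha
      rw [IsLocalRing.mem_maximalIdeal, mem_nonunits_iff,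
        ← (dw_placeAt hx c).adicValuation_coe_eq_one_iff] at ha
      have hle : (dw_placeAt hx c).adicValuation (a : K⟮x⟯) ≤ 1 :=
        dw_adicValuation_le_one _ a.2
      have hlt : (dw_placeAt hx c).adicValuation (a : K⟮x⟯) < 1 := lt_of_le_of_ne hle ha
      rw [← exp_zero, dw_lt_exp_iff] at hlt
      rw [Ideal.mem_span_singleton']
      have hu0 : ((dw_unif hx c : (dw_placeAt hx c).toValuationSubring) : K⟮x⟯) ≠ 0 := by
        intro h
        apply dw_unif_ne_zero hx c
        exact Subtype.ext h
      refine ⟨⟨(a : K⟮x⟯) / ((dw_unif hx c : (dw_placeAt hx c).toValuationSubring) : K⟮x⟯), ?_⟩, ?_⟩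
      · rw [dw_mem_iff_adicValuation_le_one, map_div₀, hval]
        exact div_le_one_of_le₀ (by simpa using hlt) zero_le
      · apply Subtype.ext
        simp only [MulMemClass.coe_mul]
        field_simp
  rw [hm]
  exact IsLocalRing.maximalIdeal.isMaximal _

/-- **Local tame direction at `x = c`.** -/
theorem dw_loc_tame (hx : Transcendental K x) [FiniteDimensional K⟮x⟯ F] (c : K) (h : F)
    (H : ∀ f : F, (∀ v : Place K F, 0 < v.ord (x - algebraMap K F c) → 0 ≤ v.ord f) →
      ∀ v : Place K F, 0 < v.ord (x - algebraMap K F c) →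
        0 ≤ v.ord ((Algebra.trace K⟮x⟯ F (h * f) : K⟮x⟯) : F))
    (v : Place K F) (hv : 0 < v.ord (x - algebraMap K F c)) :
    v.adicValuation (h * (x - algebraMap K F c)) < 1 := by
  have := dw_isScalarTower_place (K := K) (F := F) (dw_placeAt hx c)
  have key := (dw_dual_iff K⟮x⟯ (dw_placeAt hx c).toValuationSubring
    {v | 0 < v.ord (x - algebraMap K F c)}
    (fun v hv a => dw_loc_H1 hx c v hv a) (fun w hw => dw_loc_H2 hx c w hw) h).mp (by
      intro f hf v hv
      rw [dw_mem_iff_ord_nonneg]
      exact H f (fun w hw => (dw_mem_iff_ord_nonneg w f).mp (hf w hw)) v hv)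
  have hne : x - algebraMap K F c ≠ 0 := by
    intro h0; rw [h0] at hv; simp at hv
  have := key v hv (dw_unif hx c) (dw_unif_ne_zero hx c) (dw_loc_isMaximal hx c)
    (by rw [dw_unif_coe, dw_adicValuation_lt_one_iff v hne]; exact hv)
  rwa [dw_unif_coe] at this

/-- **Local trace direction at `x = c`.** -/
theorem dw_loc_trace (hx : Transcendental K x) [FiniteDimensional K⟮x⟯ F] (c : K) (h : F)
    (H : ∀ v : Place K F, 0 < v.ord (x - algebraMap K F c) →
      v.adicValuation (h * (x - algebraMap K F c)) < 1)
    (f : F) (hf : ∀ v : Place K F, 0 < v.ord (x - algebraMap K F c) → 0 ≤ v.ord f)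
    (v : Place K F) (hv : 0 < v.ord (x - algebraMap K F c)) :
    0 ≤ v.ord ((Algebra.trace K⟮x⟯ F (h * f) : K⟮x⟯) : F) := by
  have := dw_isScalarTower_place (K := K) (F := F) (dw_placeAt hx c)
  have key := (dw_dual_iff K⟮x⟯ (dw_placeAt hx c).toValuationSubring
    {v | 0 < v.ord (x - algebraMap K F c)}
    (fun v hv a => dw_loc_H1 hx c v hv a) (fun w hw => dw_loc_H2 hx c w hw) h).mpr (by
      intro v hv t ht hmax hvt
      have hne : x - algebraMap K F c ≠ 0 := by
        intro h0
        have hv' : 0 < v.ord (x - algebraMap K F c) := hv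
        rw [h0] at hv'; simp at hv'
      have e := dw_adicValuation_eq_of_maximal (dw_placeAt hx c).toValuationSubring v
        (fun a => dw_loc_H1 hx c v hv a) hmax (dw_loc_isMaximal hx c) hvt
        (by rw [dw_unif_coe, dw_adicValuation_lt_one_iff v hne]; exact hv)
      rw [map_mul, e, ← map_mul, dw_unif_coe]
      exact H v hv)
  rw [← dw_mem_iff_ord_nonneg]
  exact key f (fun w hw => (dw_mem_iff_ord_nonneg w f).mpr (hf w hw)) v hv

end Local

section Infinity

variable [IsAlgClosed K] [CharZero K] {x : F}

omit [IsAlgClosed K] [CharZero K] in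
theorem dw_adjoin_inv_eq (x : F) : K⟮x⁻¹⟯ = K⟮x⟯ := by
  apply le_antisymm
  · rw [adjoin_simple_le_iff]
    exact inv_mem (mem_adjoin_simple_self K x)
  · rw [adjoin_simple_le_iff]
    have := inv_mem (mem_adjoin_simple_self K x⁻¹)
    rwa [inv_inv] at this

/-- **(b3), places at infinity, tame direction.** -/
theorem dw_inf_tame (hx : Transcendental K x) [FiniteDimensional K⟮x⟯ F] (h : F)
    (H : ∀ f : F, (∀ v : Place K F, v.ord x < 0 → 0 ≤ v.ord f) →
      ∀ v : Place K F, v.ord x < 0 → 0 ≤ v.ord ((Algebra.trace K⟮x⟯ F (h * f) : K⟮x⟯) : F))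
    (v : Place K F) (hv : v.ord x < 0) : v.adicValuation (h * x⁻¹) < 1 := by
  have hx' : Transcendental K x⁻¹ := fun h => hx (IsAlgebraic.inv_iff.mp h)
  have heq := dw_adjoin_inv_eq (K := K) x
  have hfd : FiniteDimensional K⟮x⁻¹⟯ F := by rw [heq]; infer_instance
  have := dw_loc_tame hx' (0 : K) h (by
    simp only [map_zero, sub_zero, Place.ord_inv]
    intro f hf w hw
    rw [dw_trace_congr heq]
    exact H f (fun u hu => hf u (by omega)) w (by omega)) v (by
      simp only [map_zero, sub_zero, Place.ord_inv]; omega)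
  simpa only [map_zero, sub_zero] using this

/-- **(b4), places at infinity, trace direction.** -/
theorem dw_inf_trace (hx : Transcendental K x) [FiniteDimensional K⟮x⟯ F] (h : F)
    (H : ∀ v : Place K F, v.ord x < 0 → v.adicValuation (h * x⁻¹) < 1)
    (f : F) (hf : ∀ v : Place K F, v.ord x < 0 → 0 ≤ v.ord f)
    (v : Place K F) (hv : v.ord x < 0) :
    0 ≤ v.ord ((Algebra.trace K⟮x⟯ F (h * f) : K⟮x⟯) : F) := by
  have hx' : Transcendental K x⁻¹ := fun h => hx (IsAlgebraic.inv_iff.mp h)
  have heq := dw_adjoin_inv_eq (K := K) x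
  have hfd : FiniteDimensional K⟮x⁻¹⟯ F := by rw [heq]; infer_instance
  have := dw_loc_trace hx' (0 : K) h (by
    simp only [map_zero, sub_zero, Place.ord_inv]
    intro w hw
    exact H w (by omega)) f (by
    simp only [map_zero, sub_zero, Place.ord_inv]
    intro w hw
    exact hf w (by omega)) v (by
      simp only [map_zero, sub_zero, Place.ord_inv]; omega)
  rw [dw_trace_congr heq] at this
  exact this

end Infinity

end Fermat.Agent.S20
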